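import Mathlib.NumberTheory.ModularForms.Derivative

/-!
# Bol's identity for the normalized derivative

`D = (2πi)⁻¹ d/dz` on functions `ℍ → ℂ`.  For `m : ℕ` and `g ∈ GL₂(ℝ)` with positive
determinant:

`D^[m+1] (F ∣[-m] g) = (det g)⁻¹ ^ (m+1) • (D^[m+1] F) ∣[m+2] g`.
-/

open UpperHalfPlane hiding I
open Real Complex
open scoped Manifold MatrixGroups ModularForm Topology
open Derivative

namespace Fermat.Agent.S22.H72

/-- Iterates of the normalized derivative preserve holomorphy. -/
theorem mdiff_iterate_D (n : ℕ) {F : ℍ → ℂ} (hF : MDiff F) : MDiff (D^[n] F) := by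
  induction n generalizing F with
  | zero => simpa using hF
  | succ n ih =>
    rw [Function.iterate_succ_apply]
    exact ih (normalizedDerivOfComplex_mdifferentiable hF)

/-- Iterates of `D` commute with scalar multiplication. -/
theorem iterate_D_smul (n : ℕ) (c : ℂ) {F : ℍ → ℂ} (hF : MDiff F) :
    D^[n] (c • F) = c • D^[n] F := by
  induction n generalizing F with
  | zero => simp
  | succ n ih =>
    rw [Function.iterate_succ_apply, Function.iterate_succ_apply,
      normalizedDerivOfComplex_smul c F hF, ih (normalizedDerivOfComplex_mdifferentiable hF)]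

/-- Iterates of `D` are additive. -/
theorem iterate_D_add (n : ℕ) {F G : ℍ → ℂ} (hF : MDiff F) (hG : MDiff G) :
    D^[n] (F + G) = D^[n] F + D^[n] G := by
  induction n generalizing F G with
  | zero => simp
  | succ n ih =>
    rw [Function.iterate_succ_apply, Function.iterate_succ_apply, Function.iterate_succ_apply,
      normalizedDerivOfComplex_add F G hF hG, ih (normalizedDerivOfComplex_mdifferentiable hF)
        (normalizedDerivOfComplex_mdifferentiable hG)]

/-- Iterates of `D` commute with subtraction. -/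
theorem iterate_D_sub (n : ℕ) {F G : ℍ → ℂ} (hF : MDiff F) (hG : MDiff G) :
    D^[n] (F - G) = D^[n] F - D^[n] G := by
  induction n generalizing F G with
  | zero => simp
  | succ n ih =>
    rw [Function.iterate_succ_apply, Function.iterate_succ_apply, Function.iterate_succ_apply,
      normalizedDerivOfComplex_sub F G hF hG, ih (normalizedDerivOfComplex_mdifferentiable hF)
        (normalizedDerivOfComplex_mdifferentiable hG)]

/-- Iterates of `D` kill the zero function. -/
theorem iterate_D_zero (n : ℕ) : D^[n] (0 : ℍ → ℂ) = 0 := by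
  induction n with
  | zero => simp
  | succ n ih =>
    rw [Function.iterate_succ_apply]
    have h0 : D (0 : ℍ → ℂ) = 0 := normalizedDerivOfComplex_const 0
    rw [h0, ih]

/-- Leibniz rule for a factor with constant derivative. -/
theorem iterate_D_mul_of_D_const (l G : ℍ → ℂ) (c : ℂ) (hl : MDiff l) (hG : MDiff G)
    (hc : D l = fun _ ↦ c) (n : ℕ) :
    D^[n + 1] (l * G) = l * D^[n + 1] G + (((n : ℂ) + 1) * c) • D^[n] G := by
  induction n with
  | zero =>
    simp only [zero_add, Function.iterate_one, Function.iterate_zero, id_eq, Nat.cast_zero]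
    rw [normalizedDerivOfComplex_mul l G hl hG, hc]
    ext z
    simp only [Pi.add_apply, Pi.mul_apply, Pi.smul_apply, smul_eq_mul]
    ring
  | succ n ih =>
    have h1 : MDiff (D^[n + 1] G) := mdiff_iterate_D (n + 1) hG
    have h0 : MDiff (D^[n] G) := mdiff_iterate_D n hG
    have h2 : MDiff (l * D^[n + 1] G) := hl.mul h1
    have h3 : MDiff ((((n : ℂ) + 1) * c) • D^[n] G) := h0.const_smul _
    rw [Function.iterate_succ_apply', ih, normalizedDerivOfComplex_add _ _ h2 h3,
      normalizedDerivOfComplex_mul l _ hl h1, normalizedDerivOfComplex_smul _ _ h0, hc,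
      ← Function.iterate_succ_apply' (f := D) (n := n + 1),
      ← Function.iterate_succ_apply' (f := D) (n := n)]
    ext z
    simp only [Pi.add_apply, Pi.mul_apply, Pi.smul_apply, smul_eq_mul]
    push_cast
    ring

/-- The affine factor `z ↦ (c z + d) / det g` relating consecutive weights of the slash action. -/
noncomputable def affFactor (g : GL (Fin 2) ℝ) : ℍ → ℂ :=
  fun z ↦ denom g z / (g.val.det : ℂ)

theorem mdiff_affFactor (g : GL (Fin 2) ℝ) : MDiff (affFactor g) := by
  have h : affFactor g = (fun z : ℍ ↦ denom g z) * (fun _ : ℍ ↦ ((g.val.det : ℂ))⁻¹) := by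
    ext z
    simp [affFactor, div_eq_mul_inv]
  rw [h]
  exact (mdifferentiable_denom g).mul mdifferentiable_const

theorem D_affFactor (g : GL (Fin 2) ℝ) :
    D (affFactor g) = fun _ ↦ (2 * π * I)⁻¹ * ((g 1 0 : ℂ) / (g.val.det : ℂ)) := by
  ext z
  simp only [normalizedDerivOfComplex]
  congr 1
  have hd : HasDerivAt (fun w : ℂ ↦ denom g w / (g.val.det : ℂ))
      ((g 1 0 : ℂ) / (g.val.det : ℂ)) (z : ℂ) := by
    have h1 : HasDerivAt (fun w : ℂ ↦ denom g w) (g 1 0 : ℂ) (z : ℂ) := by
      simpa [denom] using ((hasDerivAt_id (z : ℂ)).const_mul (g 1 0 : ℂ)).add_const (g 1 1 : ℂ)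
    exact h1.div_const _
  have hev : (affFactor g ∘ ofComplex) =ᶠ[𝓝 (z : ℂ)] fun w : ℂ ↦ denom g w / (g.val.det : ℂ) := by
    filter_upwards [isOpen_upperHalfPlaneSet.mem_nhds z.im_pos] with w hw
    simp [affFactor, Function.comp_apply, ofComplex_apply_of_im_pos hw]
  exact (hd.congr_of_eventuallyEq hev).deriv

/-- Lowering the weight by one multiplies the slash by the affine factor. -/
theorem slash_pred_eq_affFactor_mul (k : ℤ) (F : ℍ → ℂ) (g : GL (Fin 2) ℝ)
    (hg : 0 < g.val.det) : F ∣[k - 1] g = affFactor g * F ∣[k] g := by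
  have hdet : g.det.val = g.val.det := Matrix.GeneralLinearGroup.val_det_apply g
  have hdetℂ : (g.val.det : ℂ) ≠ 0 := Complex.ofReal_ne_zero.mpr hg.ne'
  ext z
  have hz := denom_ne_zero g z
  simp only [ModularForm.slash_apply, Pi.mul_apply, affFactor, hdet, abs_of_pos hg]
  rw [show k - 1 - 1 = (k - 1) - 1 by ring, zpow_sub_one₀ hdetℂ, show -(k - 1) = -k + 1 by ring,
    zpow_add_one₀ hz]
  field_simp

/-- **Bol's identity** for the normalized derivative `D = (2πi)⁻¹ d/dz`. -/
theorem bol (m : ℕ) (F : ℍ → ℂ) (hF : MDiff F) (g : GL (Fin 2) ℝ) (hg : 0 < g.val.det) :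
    D^[m + 1] (F ∣[-(m : ℤ)] g) =
      ((g.val.det : ℂ)⁻¹) ^ (m + 1) • ((D^[m + 1] F) ∣[(m : ℤ) + 2] g) := by
  have hdetℂ : (g.val.det : ℂ) ≠ 0 := Complex.ofReal_ne_zero.mpr hg.ne'
  induction m with
  | zero =>
    simp only [zero_add, Function.iterate_one, Nat.cast_zero, neg_zero, pow_one]
    rw [normalizedDerivOfComplex_slash hF hg]
    ext z
    simp
  | succ m ih =>
    have hG : MDiff (F ∣[-(m : ℤ)] g) := hF.slash _ g
    have hH1 : MDiff (D^[m + 1] F) := mdiff_iterate_D (m + 1) hF
    have hS1 : MDiff ((D^[m + 1] F) ∣[(m : ℤ) + 2] g) := hH1.slash _ g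
    have hsl : F ∣[-((m + 1 : ℕ) : ℤ)] g = affFactor g * F ∣[-(m : ℤ)] g := by
      rw [← slash_pred_eq_affFactor_mul _ F g hg]
      congr 1
      push_cast
      ring
    rw [hsl, iterate_D_mul_of_D_const (affFactor g) _ _ (mdiff_affFactor g) hG (D_affFactor g),
      Function.iterate_succ_apply' (f := D) (n := m + 1), ih,
      normalizedDerivOfComplex_smul _ _ hS1, normalizedDerivOfComplex_slash hH1 hg,
      ← Function.iterate_succ_apply' (f := D) (n := m + 1)]
    have hsl2 : (D^[m + 1 + 1] F) ∣[(m : ℤ) + 2 + 2] g =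
        (fun z : ℍ ↦ (g.val.det : ℂ) / denom g z) * (D^[m + 1 + 1] F) ∣[((m + 1 : ℕ) : ℤ) + 2] g := by
      have h := slash_pred_eq_affFactor_mul ((m : ℤ) + 2 + 2) (D^[m + 1 + 1] F) g hg
      have hk : ((m : ℤ) + 2 + 2 - 1) = ((m + 1 : ℕ) : ℤ) + 2 := by push_cast; ring
      rw [hk] at h
      rw [h]
      ext z
      have hz := denom_ne_zero g z
      simp only [Pi.mul_apply, affFactor]
      field_simp
    rw [hsl2]
    ext z
    have hz := denom_ne_zero g z
    simp only [Pi.add_apply, Pi.mul_apply, Pi.smul_apply, smul_eq_mul, affFactor, inv_pow]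
    push_cast
    field_simp
    ring

/-- Bol's identity for `SL(2, ℤ)`: `D^[m+1]` intertwines weight `-m` and weight `m + 2`. -/
theorem bol_SL (m : ℕ) (F : ℍ → ℂ) (hF : MDiff F) (γ : SL(2, ℤ)) :
    D^[m + 1] (F ∣[-(m : ℤ)] γ) = (D^[m + 1] F) ∣[(m : ℤ) + 2] γ := by
  have hdet : (γ : GL (Fin 2) ℝ).val.det = 1 := by
    rw [← Matrix.GeneralLinearGroup.val_det_apply]; simp
  have h := bol m F hF (γ : GL (Fin 2) ℝ) (by rw [hdet]; exact one_pos)
  rw [hdet] at h
  simpa [ModularForm.SL_slash] using h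

/-- If `D^[m+1] F` is invariant of weight `m + 2` under `γ`, then `F ∣[-m] γ - F` is killed by
`D^[m+1]` (so it is a polynomial of degree `≤ m`: the period polynomial). -/
theorem iterate_D_slash_sub_eq_zero (m : ℕ) (F : ℍ → ℂ) (hF : MDiff F) (γ : SL(2, ℤ))
    (hinv : (D^[m + 1] F) ∣[(m : ℤ) + 2] γ = D^[m + 1] F) :
    D^[m + 1] (F ∣[-(m : ℤ)] γ - F) = 0 := by
  have hS : MDiff (F ∣[-(m : ℤ)] γ) := by
    rw [ModularForm.SL_slash]
    exact hF.slash _ _
  rw [iterate_D_sub (m + 1) hS hF, bol_SL m F hF γ, hinv, sub_self]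

end Fermat.Agent.S22.H72
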