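import Mathlib.NumberTheory.ModularForms.Derivative

/-!
# Functions on `ℍ` killed by an iterate of `D` are polynomials

If `G : ℍ → ℂ` is holomorphic and `D^[n] G = 0` (with `D = (2πi)⁻¹ d/dz`), then `G` is the
restriction to `ℍ` of a polynomial of degree `< n`.
-/

open UpperHalfPlane hiding I
open Real Complex
open scoped Manifold MatrixGroups ModularForm Topology
open Derivative

namespace Fermat.Agent.S22.H72

/-- A primitive of a complex polynomial. -/
noncomputable def polyPrim (Q : Polynomial ℂ) : Polynomial ℂ :=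
  ∑ i ∈ Q.support, Polynomial.monomial (i + 1) (Q.coeff i / ((i : ℂ) + 1))

theorem derivative_polyPrim (Q : Polynomial ℂ) : Polynomial.derivative (polyPrim Q) = Q := by
  unfold polyPrim
  rw [Polynomial.derivative_sum]
  conv_rhs => rw [Q.as_sum_support]
  refine Finset.sum_congr rfl fun i _ ↦ ?_
  rw [Polynomial.derivative_monomial]
  have hi : (i : ℂ) + 1 ≠ 0 := by exact_mod_cast Nat.succ_ne_zero i
  congr 1
  push_cast
  field_simp

theorem degree_polyPrim_lt (Q : Polynomial ℂ) (n : ℕ) (h : Q.degree < n) :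
    (polyPrim Q).degree < (n + 1 : ℕ) := by
  rw [Polynomial.degree_lt_iff_coeff_zero] at h ⊢
  intro j hj
  unfold polyPrim
  rw [Polynomial.finsetSum_coeff]
  refine Finset.sum_eq_zero fun i hi ↦ ?_
  rw [Polynomial.coeff_monomial]
  split_ifs with hij
  · exact absurd (h i (by omega)) (Polynomial.mem_support_iff.mp hi)
  · rfl

/-- If `D G` is (the restriction of) a polynomial of degree `< n`, then `G` is a polynomial of
degree `< n + 1`. -/
theorem exists_poly_of_D_eq_poly (G : ℍ → ℂ) (hG : MDiff G) (Q : Polynomial ℂ) (n : ℕ)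
    (hQ : Q.degree < n) (h : ∀ τ : ℍ, D G τ = Q.eval (τ : ℂ)) :
    ∃ P : Polynomial ℂ, P.degree < (n + 1 : ℕ) ∧ ∀ τ : ℍ, G τ = P.eval (τ : ℂ) := by
  have h2pi : (2 * π * I : ℂ) ≠ 0 := Complex.two_pi_I_ne_zero
  set P₀ := polyPrim (Polynomial.C (2 * π * I) * Q) with hP₀
  have hGd := UpperHalfPlane.mdifferentiable_iff.mp hG
  have hdiff : DifferentiableOn ℂ (fun w : ℂ ↦ (G ∘ ofComplex) w - P₀.eval w)
      upperHalfPlaneSet := hGd.sub P₀.differentiable.differentiableOn
  have hderiv : Set.EqOn (deriv (fun w : ℂ ↦ (G ∘ ofComplex) w - P₀.eval w)) 0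
      upperHalfPlaneSet := by
    intro w hw
    have h1 : DifferentiableAt ℂ (G ∘ ofComplex) w :=
      hGd.differentiableAt (isOpen_upperHalfPlaneSet.mem_nhds hw)
    have h2 := h ⟨w, hw⟩
    simp only [normalizedDerivOfComplex] at h2
    have h3 : deriv (G ∘ ofComplex) w = (2 * π * I) * Q.eval w := by
      rw [← h2]
      field_simp
    rw [deriv_fun_sub h1 P₀.differentiableAt, Polynomial.deriv, hP₀, derivative_polyPrim, h3]
    simp
  obtain ⟨c, hc⟩ := isOpen_upperHalfPlaneSet.exists_is_const_of_deriv_eq_zero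
    (convex_halfSpace_im_gt 0).isPreconnected hdiff hderiv
  refine ⟨P₀ + Polynomial.C c, ?_, fun τ ↦ ?_⟩
  · refine lt_of_le_of_lt (Polynomial.degree_add_le _ _) (max_lt ?_ ?_)
    · refine degree_polyPrim_lt _ n ?_
      rwa [Polynomial.degree_C_mul h2pi]
    · refine lt_of_le_of_lt Polynomial.degree_C_le ?_
      exact_mod_cast Nat.succ_pos n
  · have h5 := hc (τ : ℂ) τ.im_pos
    simp only [Function.comp_apply, ofComplex_apply] at h5
    rw [Polynomial.eval_add, Polynomial.eval_C, ← h5]
    ring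

/-- A holomorphic function on `ℍ` killed by `D^[n]` is a polynomial of degree `< n`. -/
theorem exists_poly_of_iterate_D_eq_zero (n : ℕ) (G : ℍ → ℂ) (hG : MDiff G)
    (h : D^[n] G = 0) :
    ∃ P : Polynomial ℂ, P.degree < n ∧ ∀ τ : ℍ, G τ = P.eval (τ : ℂ) := by
  induction n generalizing G with
  | zero =>
    refine ⟨0, ?_, fun τ ↦ ?_⟩
    · simp
    · simpa using congrFun h τ
  | succ n ih =>
    rw [Function.iterate_succ_apply] at h
    obtain ⟨Q, hQ, hQe⟩ := ih (D G) (normalizedDerivOfComplex_mdifferentiable hG) h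
    exact exists_poly_of_D_eq_poly G hG Q n hQ hQe

end Fermat.Agent.S22.H72
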